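import Fermat.Agent.LT.A2.H753.RegSpec

/-!
# Row LT, tower A2, leaf A2.03.1.3.4 `H753.StdAAC` (registry row 1298) -- helper905

OFF-MAIN.  `stdAAC905 : H753.StdAAC`, VERBATIM against `LT/A2/H753/RegSpec.lean`
(helper753@d32e3cf62, sha256 1258ecf1be299f69).

Route (the one of the row): `S = {v ∣ level} ∪ {v : an entry of g, g⁻¹, m, m⁻¹ is not integral
at v}`.  For `v ∉ S`: `FinAt.right_inv` at the pair `(1, 1)` with `k = g_v`, `κ = m_v` gives
`F_v(g_v, m_v) = F_v(1, 1) = stdFn v` (`GoodAt.std`).  `InLevL`: the closure of the level at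
`v ∤ level` contains `𝒪_v` (`mem_idealClosure_of_not_dvd905`: density of `K` in `K_v`,
`exists_valuation_sub_lt_of_integer`, an element of the level which is a unit at `v`);
`κ ∈ Tlev v` by `GoodAt.tlev`.
-/

set_option autoImplicit false

open IsDedekindDomain NumberField AutomorphicForm MeasureTheory
open scoped MatrixGroups Topology

noncomputable section

namespace Fermat.Agent.LT.A2.H905

open Fermat.Agent.LT.H130 Fermat.Agent.LT.H556 Fermat.Agent.LT.A2 Fermat.Agent.LT.A2.WX467
open Fermat.Agent.LT.A2.H753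

variable {K : Type} [Field K] [NumberField K]

/-- The valuation of the completion on the image of `K`. -/
theorem valued_algebraMap905 (v : HeightOneSpectrum (𝓞 K)) (k : K) :
    Valued.v (algebraMap K (v.adicCompletion K) k) = v.valuation K k :=
  HeightOneSpectrum.valuedAdicCompletion_eq_valuation' v k

/-- At a place `v` which does not divide `𝔫` the closure of `𝔫` in `K_v` contains `𝒪_v`. -/
theorem mem_idealClosure_of_not_dvd905 (𝔫 : Ideal (𝓞 K)) (v : HeightOneSpectrum (𝓞 K))
    (hv : ¬ v.asIdeal ∣ 𝔫) (x : v.adicCompletion K) (hx : x ∈ v.adicCompletionIntegers K) :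
    x ∈ A0.idealClosure 𝔫 v := by
  obtain ⟨a, ha𝔫, hav⟩ : ∃ a ∈ 𝔫, a ∉ v.asIdeal := by
    rw [Ideal.dvd_iff_le] at hv
    exact SetLike.not_le_iff_exists.mp hv
  set a' : v.adicCompletion K := algebraMap K (v.adicCompletion K) (algebraMap (𝓞 K) K a)
    with ha'
  have hva : Valued.v a' = 1 := by
    rw [ha', valued_algebraMap905]
    exact (HeightOneSpectrum.valuation_eq_one_iff_notMem v).mpr hav
  have ha0 : a' ≠ 0 := by
    intro h0
    rw [h0, map_zero] at hva
    exact zero_ne_one hva
  have hx1 : Valued.v x ≤ 1 := (HeightOneSpectrum.mem_adicCompletionIntegers (𝓞 K) K v).mp hx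
  unfold A0.idealClosure
  rw [mem_closure_iff_nhds]
  intro t ht
  rw [Valued.mem_nhds] at ht
  obtain ⟨γ, hγ⟩ := ht
  -- the radius in the value group
  set γ' : WithZero (Multiplicative ℤ) := MonoidWithZeroHom.ValueGroup₀.embedding γ.1 with hγ'
  have hγ0 : γ' ≠ 0 := by
    rw [hγ']
    intro h0
    have := (map_eq_zero_iff _ (MonoidWithZeroHom.ValueGroup₀.embedding_injective)).mp h0
    exact γ.ne_zero this
  -- the point `x / a`
  set x' : v.adicCompletion K := x * a'⁻¹ with hx'
  have hvx' : Valued.v x' ≤ 1 := by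
    rw [hx', map_mul, map_inv₀, hva, inv_one, mul_one]
    exact hx1
  have hax' : a' * x' = x := by
    rw [hx', mul_comm x, ← mul_assoc, mul_inv_cancel₀ ha0, one_mul]
  -- an element of `K` close to `x / a`
  have hmin0 : min γ.1 1 ≠ 0 := by
    rcases min_choice γ.1 (1 : MonoidWithZeroHom.ValueGroup₀ _) with h | h
    · rw [h]; exact γ.ne_zero
    · rw [h]; exact one_ne_zero
  have hnh : {y : v.adicCompletion K | Valued.v.restrict (y - x') < min γ.1 1} ∈ 𝓝 x' :=
    Valued.mem_nhds.mpr ⟨Units.mk0 _ hmin0, fun y hy => hy⟩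
  obtain ⟨z, hz⟩ := (HeightOneSpectrum.denseRange_algebraMap K v).mem_nhds hnh
  have hz1 : Valued.v (algebraMap K (v.adicCompletion K) z - x') < 1 :=
    (Valuation.restrict_lt_one_iff _).mp (lt_of_lt_of_le hz (min_le_right _ _))
  have hzγ : Valued.v (algebraMap K (v.adicCompletion K) z - x') < γ' :=
    (Valuation.restrict_lt_iff_lt_embedding _).mp (lt_of_lt_of_le hz (min_le_left _ _))
  have hzint : v.valuation K z ≤ 1 := by
    rw [← valued_algebraMap905]
    have : algebraMap K (v.adicCompletion K) z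
        = (algebraMap K (v.adicCompletion K) z - x') + x' := by ring
    rw [this]
    exact Valuation.map_add_le _ hz1.le hvx'
  obtain ⟨b, hb⟩ := HeightOneSpectrum.exists_valuation_sub_lt_of_integer v hzint
    (Units.mk0 γ' hγ0)
  rw [Units.val_mk0] at hb
  set b' : v.adicCompletion K := algebraMap K (v.adicCompletion K) (algebraMap (𝓞 K) K b)
    with hb'
  have hbz : Valued.v (b' - algebraMap K (v.adicCompletion K) z) < γ' := by
    rw [hb', ← map_sub, valued_algebraMap905]
    exact hb
  have hbx : Valued.v (b' - x') < γ' := by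
    have : b' - x' = (b' - algebraMap K (v.adicCompletion K) z)
        + (algebraMap K (v.adicCompletion K) z - x') := by ring
    rw [this]
    exact Valuation.map_add_lt _ hbz hzγ
  refine ⟨a' * b', hγ ?_, a * b, Ideal.mul_mem_right b 𝔫 ha𝔫, ?_⟩
  · show Valued.v.restrict (a' * b' - x) < γ.1
    rw [Valuation.restrict_lt_iff_lt_embedding]
    have : a' * b' - x = a' * (b' - x') := by rw [mul_sub, hax']
    rw [this, map_mul, hva, one_mul]
    exact hbx
  · show algebraMap K (v.adicCompletion K) (algebraMap (𝓞 K) K (a * b)) = a' * b'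
    rw [map_mul, map_mul]


/-! ## The component at a finite place -/

/-- The component at the finite place `v`, as a ring homomorphism. -/
def evalFin905 (v : HeightOneSpectrum (𝓞 K)) : A0.Adl K →+* v.adicCompletion K where
  toFun x := x.2 v
  map_one' := rfl
  map_mul' _ _ := rfl
  map_zero' := rfl
  map_add' _ _ := rfl

theorem finComp_eq_map905 (v : HeightOneSpectrum (𝓞 K)) (g : A0.G K) :
    A0.finComp v g = (evalFin905 v).mapMatrix (g : Matrix (Fin 2) (Fin 2) (A0.Adl K)) := by
  ext i j
  rfl

theorem finComp_mul905 (v : HeightOneSpectrum (𝓞 K)) (g h : A0.G K) :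
    A0.finComp v (g * h) = A0.finComp v g * A0.finComp v h := by
  rw [finComp_eq_map905, finComp_eq_map905, finComp_eq_map905, Units.val_mul, map_mul]

theorem finComp_one905 (v : HeightOneSpectrum (𝓞 K)) : A0.finComp v (1 : A0.G K) = 1 := by
  rw [finComp_eq_map905, Units.val_one, map_one]

theorem finComp_mul_inv905 (v : HeightOneSpectrum (𝓞 K)) (g : A0.G K) :
    A0.finComp v g * A0.finComp v g⁻¹ = 1 := by
  rw [← finComp_mul905, mul_inv_cancel, finComp_one905]

theorem finComp_inv905 (v : HeightOneSpectrum (𝓞 K)) (g : A0.G K) :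
    (A0.finComp v g)⁻¹ = A0.finComp v g⁻¹ :=
  Matrix.inv_eq_right_inv (finComp_mul_inv905 v g)

theorem finComp_det_ne_zero905 (v : HeightOneSpectrum (𝓞 K)) (g : A0.G K) :
    (A0.finComp v g).det ≠ 0 := by
  intro h
  have h1 := congrArg Matrix.det (finComp_mul_inv905 v g)
  rw [Matrix.det_mul, h, zero_mul, Matrix.det_one] at h1
  exact zero_ne_one h1

/-! ## Almost all components are integral -/

/-- An adele is integral at almost all finite places. -/
theorem finite_nonint905 (x : A0.Adl K) :
    {v : HeightOneSpectrum (𝓞 K) | x.2 v ∉ v.adicCompletionIntegers K}.Finite :=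
  Filter.eventually_cofinite.mp x.2.eventually

/-- The matrix of an element of `GL₂(𝔸_K)` is integral at almost all finite places. -/
theorem finite_nonint_mat905 (g : A0.G K) :
    {v : HeightOneSpectrum (𝓞 K) |
      ¬ ∀ i j : Fin 2, A0.finComp v g i j ∈ v.adicCompletionIntegers K}.Finite := by
  refine Set.Finite.subset
    (Set.finite_iUnion fun i : Fin 2 => Set.finite_iUnion fun j : Fin 2 =>
      finite_nonint905 ((g : Matrix (Fin 2) (Fin 2) (A0.Adl K)) i j)) ?_
  intro v hv
  simp only [Set.mem_ofPred_eq, not_forall] at hv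
  obtain ⟨i, j, hij⟩ := hv
  exact Set.mem_iUnion.mpr ⟨i, Set.mem_iUnion.mpr ⟨j, hij⟩⟩

/-- An integral matrix minus the identity is integral. -/
theorem sub_one_integral905 (v : HeightOneSpectrum (𝓞 K))
    (k : Matrix (Fin 2) (Fin 2) (v.adicCompletion K))
    (hk : ∀ i j : Fin 2, k i j ∈ v.adicCompletionIntegers K) (i j : Fin 2) :
    (k - 1) i j ∈ v.adicCompletionIntegers K := by
  rw [Matrix.sub_apply, Matrix.one_apply]
  refine sub_mem (hk i j) ?_
  split_ifs
  · exact one_mem _
  · exact zero_mem _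

/-! ## The leaf -/

/-- **LEAF A2.03.1.3.4 `StdAAC`** (R4): for an admissible pair almost all the finite local
functions are standard. -/
theorem stdAAC905 : StdAAC := by
  intro hDict K _ _ L hgood g m hAdm
  obtain ⟨hfin, -⟩ := hDict K L g m hAdm
  have hlev : {v : HeightOneSpectrum (𝓞 K) | v.asIdeal ∣ L.π.level}.Finite :=
    Ideal.finite_factors L.π.level_ne_bot
  have hS := (((hlev.union (finite_nonint_mat905 g)).union (finite_nonint_mat905 g⁻¹)).union
    (finite_nonint_mat905 m)).union (finite_nonint_mat905 m⁻¹)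
  refine ⟨hS.toFinset, fun v hv => ?_⟩
  rw [Set.Finite.mem_toFinset] at hv
  simp only [Set.mem_union, Set.mem_ofPred_eq, not_or, not_not] at hv
  obtain ⟨⟨⟨⟨hvl, hg⟩, hgi⟩, hm⟩, hmi⟩ := hv
  have hG := hgood.good v hvl
  have hF := hgood.fin v
  obtain ⟨htor, hdet, hdet0⟩ := hfin v
  -- the closure of the level at `v` contains the integers
  have hcl : ∀ x : v.adicCompletion K, x ∈ v.adicCompletionIntegers K →
      x ∈ A0.idealClosure L.π.level v :=
    mem_idealClosure_of_not_dvd905 L.π.level v hvl
  -- `g_v` is in the level group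
  have hInLev : InLevL L.π.level v (A0.finComp v g) := by
    refine ⟨finComp_det_ne_zero905 v g, fun i j => ⟨?_, ?_⟩⟩
    · exact hcl _ (sub_one_integral905 v _ hg i j)
    · rw [finComp_inv905]
      exact hcl _ (sub_one_integral905 v _ hgi i j)
  -- `m_v` is in the level group of the torus
  have hTlev : A0.finComp v m ∈ L.Tlev v := by
    rw [hG.tlev]
    refine ⟨htor, hdet0, hm, ?_⟩
    rw [finComp_inv905]
    exact hmi
  -- the pair `(1, 1)` is admissible
  have hAdm1 : AdmL (L.tfin v) (L.nfin v)
      (1 : Matrix (Fin 2) (Fin 2) (v.adicCompletion K)) 1 := by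
    refine ⟨⟨1, 0, ?_⟩, rfl, ?_⟩
    · unfold torMat
      ext i j
      fin_cases i <;> fin_cases j <;> simp
    · rw [Matrix.det_one]
      exact one_ne_zero
  funext ξ
  have key := hF.right_inv (A0.finComp v g) (A0.finComp v m) hInLev hTlev hdet 1 1 ξ hAdm1
  rw [one_mul, one_mul] at key
  rw [key, hG.std]

end Fermat.Agent.LT.A2.H905
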